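import Fermat.Agent.A2.Mod.Spec
import Fermat.Agent.A2.Mod.H31.DegField

/-!
# A2 / MOD leaf L8 (helper31): `DegStatement`

`[F_{Mq} : E(x)] = 2 (q+1) ψ(M)` for `x = j · j_q`, `x` transcendental over `E`, and `E` is
algebraically closed in `F_{Mq}`.  Statement VERBATIM from `Fermat/Agent/A2/Mod/Spec.lean`.
-/

set_option autoImplicit false
set_option synthInstance.maxHeartbeats 400000
set_option maxHeartbeats 1600000

noncomputable section

namespace Fermat.Agent.A2.Mod.H31

open ModularCurve HahnSeries Polynomial IntermediateField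

variable (E : IntermediateField ℚ Qb)

theorem FE_eq_fullC (N : ℕ) : FE E N = modularFunctionFieldFullC E N :=
  S28.H988.laurentBaseChange_full_eq_fullC E N

theorem coe_jE (N d : ℕ) [NeZero d] (hd : d ∣ N) :
    ((jE E N d hd : FE E N) : LaurentSeries E) = qExpand E d (jqModC E) := by
  show coeffEmb E (qExpand ℚ d jq) = _
  rw [coeffEmb, ← jqModC_rat, coeffMap_qExpand, coeffMap_jqModC]

theorem coe_xE (M q : ℕ) [NeZero q] :
    ((xE E M q : FE E (M * q)) : LaurentSeries E) = jqModC E * qExpand E q (jqModC E) := by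
  rw [xE, MulMemClass.coe_mul, coe_jE, coe_jE, qExpand_one_apply]

/-- **Leaf L8.** -/
theorem deg (M q : ℕ) [NeZero q] : DegStatement E M q := by
  intro hq hqM
  have hchar : ∀ p : ℕ, p.Prime → p ∣ M * q → ((p : ℕ) : E) ≠ 0 :=
    fun p hp _ => Nat.cast_ne_zero.mpr hp.ne_zero
  refine ⟨?_, ?_, ?_⟩
  · intro h
    have h2 : IsAlgebraic E ((xE E M q : FE E (M * q)) : LaurentSeries E) :=
      (isAlgebraic_algHom_iff (FE E (M * q)).val Subtype.val_injective).mpr h
    rw [coe_xE] at h2
    exact transcendental_x E q h2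
  · have h1 : adjoin E {xE E M q}
        = (adjoin E {((xE E M q : FE E (M * q)) : LaurentSeries E)}).comap
            (FE E (M * q)).val := by
      have h0 : (adjoin E {xE E M q}).map (FE E (M * q)).val
          = adjoin E {((xE E M q : FE E (M * q)) : LaurentSeries E)} := by
        rw [adjoin_map, Set.image_singleton]
        rfl
      rw [← h0, comap_map]
    rw [h1, finrank_comap, fieldRange_val, coe_xE, FE_eq_fullC]
    exact relfinrank_x_fullC E M hq hqM hchar
  · intro f hf
    have h2 : IsAlgebraic E ((f : FE E (M * q)) : LaurentSeries E) :=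
      (isAlgebraic_algHom_iff (FE E (M * q)).val Subtype.val_injective).mpr hf
    obtain ⟨c, hc⟩ := laurent_const_of_isAlgebraic _ h2
    exact ⟨c, Subtype.ext hc.symm⟩

end Fermat.Agent.A2.Mod.H31

end
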